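/-
S34lib / TC (lead), block B7 step 6: **trace and determinant comparison at a single element**.
Setting of `S31lib.TC.trace_mul_eq_of_family`: `ρ` over a Hausdorff local ring `T` with Frobenius
characteristic polynomials `X² - π(t_ℓ) X + ℓ`, finitely many `ρ'_i` over DVRs `R_i` with Frobenius
characteristic polynomials `X² - χ_i(t_ℓ) X + ℓ`, lattice property of the `χ_i`, weak Chebotarev.
If `τ` has characteristic polynomial `(X - 1)²` in all `ρ'_i`, then it has characteristic
polynomial `(X - 1)²` in `ρ`.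
-/
import Fermat.Agent.S31lib.TC.TraceCompare

set_option autoImplicit false
set_option linter.unusedSectionVars false
set_option linter.unusedVariables false
set_option linter.style.haveILetI false

noncomputable section

namespace Fermat.Agent.S34lib

open Polynomial IsLocalRing Fermat.Agent.S31lib.TC

local notation "Qb" => AlgebraicClosure ℚ
local notation "GQ" => (AlgebraicClosure ℚ ≃ₐ[ℚ] AlgebraicClosure ℚ)

/-! ### rank two generalities -/

section RankTwo

variable {R : Type*} [CommRing R] [Nontrivial R] {V : Type*} [AddCommGroup V] [Module R V]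
  [Module.Free R V] [Module.Finite R V]

/-- the characteristic polynomial of an endomorphism of a free module of rank 2. -/
theorem charpoly_eq_of_finrank_two (hrank : Module.finrank R V = 2) (f : Module.End R V) :
    LinearMap.charpoly f = X ^ 2 - C (LinearMap.trace R V f) * X + C (LinearMap.det f) := by
  classical
  let b : Module.Basis (Fin 2) R V := Module.finBasisOfFinrankEq R V hrank
  rw [← LinearMap.charpoly_toMatrix f b, Matrix.charpoly_fin_two,
    LinearMap.trace_eq_matrix_trace R b, LinearMap.det_toMatrix]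

/-- the determinant from a quadratic characteristic polynomial. -/
theorem det_eq_of_charpoly (hrank : Module.finrank R V = 2) (f : Module.End R V) {t d : R}
    (hf : LinearMap.charpoly f = X ^ 2 - C t * X + C d) : LinearMap.det f = d := by
  have h1 := charpoly_eq_of_finrank_two hrank f
  rw [hf] at h1
  have h2 := congrArg (fun q : R[X] => q.coeff 0) h1
  simp only [coeff_add, coeff_sub, coeff_X_pow, coeff_C_mul, coeff_X_zero, coeff_C_zero,
    mul_zero] at h2
  norm_num at h2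
  exact h2.symm

/-- `(X - 1)²` in the shape `X² - tX + d`. -/
theorem sub_one_sq_eq : ((X : R[X]) - 1) ^ 2 = X ^ 2 - C (2 : R) * X + C (1 : R) := by
  rw [map_one, map_ofNat]
  ring

/-- an endomorphism congruent to the identity modulo `I` has determinant congruent to `1`. -/
theorem det_sub_one_mem (hrank : Module.finrank R V = 2) (I : Ideal R) (e : Module.End R V)
    (he : ∀ v, e v - v ∈ I • (⊤ : Submodule R V)) : LinearMap.det e - 1 ∈ I := by
  classical
  let b : Module.Basis (Fin 2) R V := Module.finBasisOfFinrankEq R V hrank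
  have hE : ∀ i j, (LinearMap.toMatrix b b e - 1) i j ∈ I := by
    intro i j
    have h1 : (LinearMap.toMatrix b b e - 1) i j = b.repr (e (b j) - b j) i := by
      have : (1 : Matrix (Fin 2) (Fin 2) R) = LinearMap.toMatrix b b (1 : Module.End R V) := by
        rw [Module.End.one_eq_id, LinearMap.toMatrix_id]
      rw [this, ← map_sub, LinearMap.toMatrix_apply, LinearMap.sub_apply, Module.End.one_apply]
    rw [h1]
    exact Fermat.Agent.S29lib.Dvr.repr_mem_of_mem_smul_top b I (he (b j)) i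
  rw [← LinearMap.det_toMatrix b, Matrix.det_fin_two]
  have h00 := hE 0 0
  have h01 := hE 0 1
  have h11 := hE 1 1
  simp only [Matrix.sub_apply, Matrix.one_apply, Fin.isValue, ↓reduceIte, zero_ne_one,
    sub_zero] at h00 h01 h11
  set M := LinearMap.toMatrix b b e
  have e1 : M 0 0 * M 1 1 - M 0 1 * M 1 0 - 1 =
      (M 0 0 - 1) * M 1 1 + (M 1 1 - 1) - M 0 1 * M 1 0 := by ring
  rw [e1]
  exact I.sub_mem (I.add_mem (I.mul_mem_right _ h00) h11) (I.mul_mem_right _ h01)

/-- congruent endomorphisms have congruent determinants. -/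
theorem det_mul_sub_mem (hrank : Module.finrank R V = 2) (I : Ideal R) (f e : Module.End R V)
    (he : ∀ v, e v - v ∈ I • (⊤ : Submodule R V)) :
    LinearMap.det (f * e) - LinearMap.det f ∈ I := by
  have h1 : LinearMap.det (f * e) - LinearMap.det f =
      LinearMap.det f * (LinearMap.det e - 1) := by
    rw [map_mul]
    ring
  rw [h1]
  exact I.mul_mem_left _ (det_sub_one_mem hrank I e he)

end RankTwo

/-! ### the comparison -/

section Compare

/-- the determinant of `ρ(g)` is congruent to `d ^ j` when `g` agrees with `φ^j` on the level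
field. -/
theorem det_sub_pow_mem {A : Type} [CommRing A] [IsLocalRing A] (ρ : GaloisRepAdic A)
    (I : Ideal A) (L : IntermediateField ℚ Qb)
    (hL : ∀ g : GQ, (∀ x ∈ L, g x = x) → ∀ v : ρ.V, ρ.ρ g v - v ∈ I • (⊤ : Submodule A ρ.V))
    {g φ : GQ} {j : ℕ} (hφ : ∀ x ∈ L, (φ ^ j) x = g x) {tr d : A}
    (hchar : LinearMap.charpoly (ρ.ρ φ) = X ^ 2 - C tr * X + C d) :
    LinearMap.det (ρ.ρ g) - d ^ j ∈ I := by
  have he : ∀ x ∈ L, ((φ ^ j)⁻¹ * g) x = x := by
    intro x hx
    rw [AlgEquiv.mul_apply, ← hφ x hx]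
    exact (φ ^ j).symm_apply_apply x
  have hg : ρ.ρ g = ρ.ρ (φ ^ j) * ρ.ρ ((φ ^ j)⁻¹ * g) := by
    rw [← map_mul, mul_inv_cancel_left]
  have h1 : LinearMap.det (ρ.ρ (φ ^ j)) = d ^ j := by
    rw [map_pow, map_pow, det_eq_of_charpoly ρ.finrank_eq (ρ.ρ φ) hchar]
  rw [← h1, hg]
  exact det_mul_sub_mem ρ.finrank_eq I (ρ.ρ (φ ^ j)) (ρ.ρ ((φ ^ j)⁻¹ * g)) (hL _ he)

variable {p : ℕ}

/-- **Comparison of the characteristic polynomial of a single element.** -/
theorem charpoly_eq_of_family_unip (hp : p.Prime)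
    {T : Type} [CommRing T] [IsLocalRing T] [IsHausdorff (maximalIdeal T) T]
    (hpT : (p : T) ∈ maximalIdeal T)
    {B : Type*} [CommRing B] (π : B →+* T) (ρ : GaloisRepAdic T)
    (good : ℕ → Prop) (t : ℕ → B)
    (hρ : ∀ ℓ, good ℓ → ∀ A : ValuationSubring Qb, A.LiesOverPrime ℓ → ∀ φ : GQ,
      A.IsFrobeniusAt φ ℓ →
        LinearMap.charpoly (ρ.ρ φ) = X ^ 2 - C (π (t ℓ)) * X + C (ℓ : T))
    {ι : Type} [Finite ι] (R : ι → Type) [∀ i, CommRing (R i)] [∀ i, IsDomain (R i)]
    [∀ i, IsDiscreteValuationRing (R i)]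
    (hpR : ∀ i, (p : R i) ∈ maximalIdeal (R i)) (hpR0 : ∀ i, (p : R i) ≠ 0)
    (χ : ∀ i, B →+* R i) (ρ' : ∀ i, GaloisRepAdic (R i))
    (hρ' : ∀ i ℓ, good ℓ → ∀ A : ValuationSubring Qb, A.LiesOverPrime ℓ → ∀ φ : GQ,
      A.IsFrobeniusAt φ ℓ →
        LinearMap.charpoly ((ρ' i).ρ φ) = X ^ 2 - C (χ i (t ℓ)) * X + C (ℓ : R i))
    (hlat : ∃ c : ℕ, ∀ (r : B) (m : ℕ), (∀ i, χ i r ∈ Ideal.span {(p : R i) ^ m}) →
      r ∈ Ideal.span {(p : B) ^ (m - c)})
    (hWC : ∀ L : IntermediateField ℚ Qb, FiniteDimensional ℚ L → ∀ σ : GQ,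
      ∃ (ℓ : ℕ) (A : ValuationSubring Qb) (φ : GQ) (j : ℕ), good ℓ ∧ A.LiesOverPrime ℓ ∧
        A.IsFrobeniusAt φ ℓ ∧ ∀ x ∈ L, (φ ^ j) x = σ x)
    (τ : GQ) (hτ : ∀ i, LinearMap.charpoly ((ρ' i).ρ τ) = (X - 1) ^ 2) :
    LinearMap.charpoly (ρ.ρ τ) = (X - 1) ^ 2 := by
  classical
  obtain ⟨c, hc⟩ := hlat
  have hτ' : ∀ i, LinearMap.charpoly ((ρ' i).ρ τ) = X ^ 2 - C (2 : R i) * X + C (1 : R i) :=
    fun i => (hτ i).trans sub_one_sq_eq
  have htr' : ∀ i, LinearMap.trace (R i) (ρ' i).V ((ρ' i).ρ τ) = 2 := fun i =>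
    trace_eq_of_charpoly (ρ' i).finrank_eq _ (hτ' i)
  have hdet' : ∀ i, LinearMap.det ((ρ' i).ρ τ) = 1 := fun i =>
    det_eq_of_charpoly (ρ' i).finrank_eq _ (hτ' i)
  -- the two congruences at every level
  have key : ∀ k : ℕ, LinearMap.trace T ρ.V (ρ.ρ τ) - 2 ∈ maximalIdeal T ^ k ∧
      LinearMap.det (ρ.ρ τ) - 1 ∈ maximalIdeal T ^ k := by
    intro k
    -- the level fields
    obtain ⟨L₀, hL₀fd, hL₀⟩ := ρ.isAdicContinuous k
    have hlev : ∀ i, ∃ L : IntermediateField ℚ Qb, FiniteDimensional ℚ L ∧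
        ∀ g : GQ, (∀ x ∈ L, g x = x) → ∀ v : (ρ' i).V, (ρ' i).ρ g v - v ∈
          (Ideal.span {(p : R i) ^ (k + c)}) • (⊤ : Submodule (R i) (ρ' i).V) := by
      intro i
      obtain ⟨n, hn⟩ := exists_pow_le_span (pow_ne_zero (k + c) (hpR0 i))
      obtain ⟨L, hLfd, hL⟩ := (ρ' i).isAdicContinuous n
      exact ⟨L, hLfd, fun g hg v => Submodule.smul_mono hn le_rfl (hL g hg v)⟩
    choose Li hLifd hLi using hlev
    haveI := hL₀fd
    haveI : ∀ i, FiniteDimensional ℚ (Li i) := hLifd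
    set L : IntermediateField ℚ Qb := L₀ ⊔ ⨆ i, Li i with hLdef
    have hLfd : FiniteDimensional ℚ L := by
      rw [hLdef]
      infer_instance
    have hL₀le : L₀ ≤ L := le_sup_left
    have hLile : ∀ i, Li i ≤ L := fun i => le_trans (le_iSup Li i) le_sup_right
    -- weak Chebotarev for `τ`
    obtain ⟨ℓ, A, φ, j, hg, hA, hF, hφ⟩ := hWC L hLfd τ
    -- the two elements of `B`
    set r : B := powTr (t ℓ) (ℓ : B) j - 2 with hr
    set r' : B := (ℓ : B) ^ j - 1 with hr'
    have hχr : ∀ i, χ i r ∈ Ideal.span {(p : R i) ^ (k + c)} := by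
      intro i
      have b₁ := trace_sub_powTr_mem (ρ' i) (Ideal.span {(p : R i) ^ (k + c)}) (Li i) (hLi i)
        (fun x hx => hφ x (hLile i hx)) (hρ' i ℓ hg A hA φ hF)
      rw [htr' i] at b₁
      have e : χ i r = -(2 - powTr (χ i (t ℓ)) (ℓ : R i) j) := by
        rw [hr, map_sub, map_powTr, map_natCast, map_ofNat]
        ring
      rw [e]
      exact Ideal.neg_mem_iff _ |>.mpr b₁
    have hχr' : ∀ i, χ i r' ∈ Ideal.span {(p : R i) ^ (k + c)} := by
      intro i
      have b₁ := det_sub_pow_mem (ρ' i) (Ideal.span {(p : R i) ^ (k + c)}) (Li i) (hLi i)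
        (fun x hx => hφ x (hLile i hx)) (hρ' i ℓ hg A hA φ hF)
      rw [hdet' i] at b₁
      have e : χ i r' = -(1 - (ℓ : R i) ^ j) := by
        rw [hr', map_sub, map_pow, map_natCast, map_one]
        ring
      rw [e]
      exact Ideal.neg_mem_iff _ |>.mpr b₁
    have hmem : ∀ s : B, (∀ i, χ i s ∈ Ideal.span {(p : R i) ^ (k + c)}) →
        π s ∈ maximalIdeal T ^ k := by
      intro s hs
      have hsB : s ∈ Ideal.span {(p : B) ^ k} := by
        have := hc s (k + c) hs
        rwa [Nat.add_sub_cancel] at this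
      obtain ⟨s', hs'⟩ := Ideal.mem_span_singleton'.mp hsB
      rw [← hs', map_mul, map_pow, map_natCast]
      exact Ideal.mul_mem_left _ _ (Ideal.pow_mem_pow hpT k)
    have hπr := hmem r hχr
    have hπr' := hmem r' hχr'
    -- the trace and the determinant in `T`
    have a₁ := trace_sub_powTr_mem ρ (maximalIdeal T ^ k) L₀ hL₀
      (fun x hx => hφ x (hL₀le hx)) (hρ ℓ hg A hA φ hF)
    have a₂ := det_sub_pow_mem ρ (maximalIdeal T ^ k) L₀ hL₀
      (fun x hx => hφ x (hL₀le hx)) (hρ ℓ hg A hA φ hF)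
    constructor
    · have e : LinearMap.trace T ρ.V (ρ.ρ τ) - 2 =
          (LinearMap.trace T ρ.V (ρ.ρ τ) - powTr (π (t ℓ)) (ℓ : T) j) + π r := by
        rw [hr, map_sub, map_powTr, map_natCast, map_ofNat]
        ring
      rw [e]
      exact Ideal.add_mem _ a₁ hπr
    · have e : LinearMap.det (ρ.ρ τ) - 1 =
          (LinearMap.det (ρ.ρ τ) - (ℓ : T) ^ j) + π r' := by
        rw [hr', map_sub, map_pow, map_natCast, map_one]
        ring
      rw [e]
      exact Ideal.add_mem _ a₂ hπr'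
  have htr : LinearMap.trace T ρ.V (ρ.ρ τ) = 2 :=
    sub_eq_zero.mp (eq_zero_of_forall_mem_pow' (maximalIdeal T) fun k => (key k).1)
  have hdet : LinearMap.det (ρ.ρ τ) = 1 :=
    sub_eq_zero.mp (eq_zero_of_forall_mem_pow' (maximalIdeal T) fun k => (key k).2)
  rw [charpoly_eq_of_finrank_two ρ.finrank_eq, htr, hdet]
  exact sub_one_sq_eq.symm

end Compare

end Fermat.Agent.S34lib
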